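/-
S55 / DICT / Dense (architect helper56): SKELETON of the sections `Invariant` + `Dense` of
`Dict/WIP/Skeleton.lean`, cut into tasks `DICT-Dense-k`.
WIP file (contains `sorry`): never import it from a landed file.  The owner of a node proves it in
`Fermat/Agent/S55/Dict/Dense/<Name>.lean`, namespace `Fermat.Agent.S55.Dict`, EXACT statement.
(The namespace here is `...Dict.DenseWIP` only in order not to clash with `Dict/WIP/Skeleton.lean`.)
-/
import Fermat.Agent.S55.Dict.Defs

set_option autoImplicit false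

namespace Fermat.Agent.S55.Dict.DenseWIP

open scoped Pointwise
open NumberField IsDedekindDomain WithZero
open Fermat.Agent.S55.NIT (Pl)
open Fermat.Agent.S55.Dict

/-- DICT-Dense-1 = A1 (file Invariant.lean; Mathlib only). -/
theorem exists_invariant_sub_mem_pow {Γ R : Type*} [Group Γ] [Finite Γ] [CommRing R]
    [MulSemiringAction Γ R] (P : Ideal R) [P.IsMaximal] (t : R)
    (ht : ∀ g : Γ, g • P = P → g • t = t) (n : ℕ) :
    ∃ z : R, (∀ g : Γ, g • z = z) ∧ t - z ∈ P ^ n := sorry

variable {K : Type} [Field K] [NumberField K] [Algebra K Qb]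

/-- DICT-Dense-2 = A4 (file WeakApprox.lean; Mathlib only): weak approximation. -/
theorem weak_approx (T : Finset (Pl K)) (x : Pl K → K) (N : ℕ) :
    ∃ z : K, ∀ v ∈ T, v.valuation K (z - x v) < exp (-(N : ℤ)) := sorry

/-- DICT-Dense-2 (file WeakApprox.lean). -/
theorem finite_overQ {q : ℕ} (hq : q.Prime) : {v : Pl K | OverQ K q v}.Finite := sorry

/-- DICT-Dense-3 (file Hull.lean). A finite normal subfield of `ℚ̄` containing `K` and `t`. -/
theorem exists_normal_hull (t : Qb) :
    ∃ M : IntermediateField ℚ Qb, FiniteDimensional ℚ M ∧ Normal ℚ M ∧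
      (∀ x : K, algebraMap K Qb x ∈ M) ∧ t ∈ M := sorry

/-- DICT-Dense-3 (file Hull.lean). The key Galois-theoretic step: an element of `fixG K` which
fixes the prime of `M` below `B` fixes the elements of `M` lying in the henselisation. -/
theorem apply_eq_of_below_smul (M : IntermediateField ℚ Qb) [NumberField M] [Normal ℚ M]
    (hKM : ∀ x : K, algebraMap K Qb x ∈ M) {B : ValuationSubring Qb} {w : Pl M}
    (hw : Below M w B) {g : GQ} (hg : g ∈ fixG K) (hgw : Below M w (g • B))
    (t : Qb) (htM : t ∈ M) (ht : InHens K B t) : g t = t := sorry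

/-- DICT-Dense-4 (file IntegralCase.lean). A2 for integral `t`. -/
theorem exists_close_of_inHens_of_isIntegral {v : Pl K} {B : ValuationSubring Qb}
    (h : Below K v B) {q : ℕ} (hq : q.Prime) (hv : OverQ K q v) (t : Qb) (hint : IsIntegral ℤ t)
    (ht : InHens K B t) (n : ℕ) :
    ∃ z : K, Close B q n t (algebraMap K Qb z) := sorry

/-- DICT-Dense-5 = A2 (file InHens.lean): `K` is dense in its henselisation. -/
theorem exists_close_of_inHens {v : Pl K} {B : ValuationSubring Qb} (h : Below K v B) {q : ℕ}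
    (hq : q.Prime) (hv : OverQ K q v) (t : Qb) (ht : InHens K B t) (n : ℕ) :
    ∃ z : K, Close B q n t (algebraMap K Qb z) := sorry

/-- DICT-Dense-6 (file Equivariant.lean). One coset. -/
theorem exists_close_apply {B : ValuationSubring Qb} {q : ℕ} (hq : q.Prime)
    (hB : B.LiesOverPrime q) (y : GQ ⧸ fixG K → Qb)
    (hy : ∀ d ∈ Dec B, ∀ x, y (d • x) = d (y x)) (n : ℕ) (g : GQ) :
    ∃ z : K, Close B q n (y (g : GQ ⧸ fixG K)) (g (algebraMap K Qb z)) := sorry

/-- DICT-Dense-6 = A3 (file Equivariant.lean): `K` is dense in `Map_{Dec B}(X_K, ℚ̄)`. -/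
theorem exists_close_of_equivariant {B : ValuationSubring Qb} {q : ℕ} (hq : q.Prime)
    (hB : B.LiesOverPrime q) (y : GQ ⧸ fixG K → Qb)
    (hy : ∀ d ∈ Dec B, ∀ x, y (d • x) = d (y x)) (n : ℕ) :
    ∃ z : K, ∀ g : GQ, Close B q n (y (g : GQ ⧸ fixG K)) (g (algebraMap K Qb z)) := sorry

/-- DICT-Dense-7 = M1 (file Mult.lean): multiplicative form. -/
theorem exists_glob_close {B : ValuationSubring Qb} {q : ℕ} (hq : q.Prime)
    (hB : B.LiesOverPrime q) (f : IndMod (GQ ⧸ fixG K) Kx) (hf : f ∈ invD (Dec B) (GQ ⧸ fixG K))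
    (n : ℕ) : ∃ a : Kˣ, ∀ x, Close B q n ((f - glob K a) x).val 1 := sorry

end Fermat.Agent.S55.Dict.DenseWIP
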